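/-
MAZUR (Track M), package (R5) (lead), part 1: **restriction of places commutes with reduction**.

`φ : F₁ → F₂`, `φ̄ : F̄₁ → F̄₂` embeddings of function fields, both `F₁` and `F₂` with good reduction
(`T3aGood`), compatible with the Gauss rings and the reduction maps (`Mzr5Compat`), and compatible
with the charts: `φ x₁ ∈ C₂ = 𝒪₂ ∩ IntCl(K[x₂])` and a place `w` of `F₂` whose restriction lies on the
chart `x₁` lies on the chart `x₂`.  Then `r₁ (w ∣ φ) = (r₂ w) ∣ φ̄` for every place `w` of `F₂`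
(`mzr5_restrict_red`).

Ingredients: uniqueness of reduced places (`T3aIsRed.unique`, `unique_inv`), and a local evaluation
lemma (`mzr5_local_eval`) deduced from the conservation law: if `g ∈ 𝒪` has the value `c ∈ A` at `w`
and no pole of `g` reduces to `r w`, then `ḡ` has the value `c̄` at `r w`.
-/
import Fermat.Agent.Lib.T3.Red.Pic
import Fermat.Prelude.Def_AlgebraicCurve_Correspondence

set_option autoImplicit false
set_option linter.style.haveILetI false
set_option linter.unusedSectionVars false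
set_option linter.unusedVariables false

namespace Fermat.Agent.Mazur

open AlgebraicCurve IntermediateField Fermat.Agent.Curve Fermat.Agent.Curve.PlaceAux
  Fermat.Agent.T1 Fermat.Agent.T3

/-! ### Orders along an embedding -/

section Ord

variable {K F F' : Type*} [Field K] [Field F] [Field F'] [Algebra K F] [Algebra K F']

theorem mzr5_ramificationIndexAlong_pos (φ : F →ₐ[K] F') (hφ : φ.toRingHom.IsIntegral)
    (w : Place K F') : 0 < Place.ramificationIndexAlong φ w := by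
  letI := algebraAlong φ
  haveI := isScalarTower_along φ
  haveI := isIntegral_along φ hφ
  exact Place.ramificationIndex_pos w

/-- a zero of `f` at the restricted place is a zero of `φ f` -/
theorem mzr5_ordGE_map (φ : F →ₐ[K] F') (hφ : φ.toRingHom.IsIntegral) (w : Place K F') {f : F}
    {n : ℤ} (hn : 0 ≤ n) (h : OrdGE (w.restrictAlong φ hφ) f n) : OrdGE w (φ f) n := by
  rcases (ordGE_iff _).mp h with h0 | h0
  · rw [h0, map_zero]
    exact ordGE_zero w n
  · rw [ordGE_iff]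
    right
    rw [Place.ord_restrictAlong φ hφ]
    have he := mzr5_ramificationIndexAlong_pos φ hφ w
    have he' : (1 : ℤ) ≤ (Place.ramificationIndexAlong φ w : ℤ) := by exact_mod_cast he
    nlinarith

/-- a zero of `φ f` is a zero of `f` at the restricted place -/
theorem mzr5_ordGE_of_map (φ : F →ₐ[K] F') (hφ : φ.toRingHom.IsIntegral) (w : Place K F') {f : F}
    (h : OrdGE w (φ f) 1) : OrdGE (w.restrictAlong φ hφ) f 1 := by
  rcases (ordGE_iff _).mp h with h0 | h0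
  · rw [(map_eq_zero φ).mp h0]
    exact ordGE_zero _ 1
  · rw [ordGE_iff]
    right
    rw [Place.ord_restrictAlong φ hφ] at h0
    have he := mzr5_ramificationIndexAlong_pos φ hφ w
    have he' : (1 : ℤ) ≤ (Place.ramificationIndexAlong φ w : ℤ) := by exact_mod_cast he
    by_contra hcon
    push Not at hcon
    have h1 : (w.restrictAlong φ hφ).ord f ≤ 0 := by omega
    nlinarith

/-- the value of `φ f` at `w` is the value of `f` at the restricted place -/
theorem mzr5_value_map (φ : F →ₐ[K] F') (hφ : φ.toRingHom.IsIntegral) (w : Place K F') {f : F}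
    {c : K} (h : OrdGE (w.restrictAlong φ hφ) (f - algebraMap K F c) 1) :
    OrdGE w (φ f - algebraMap K F' c) 1 := by
  have h1 := mzr5_ordGE_map φ hφ w zero_le_one h
  rwa [map_sub, φ.commutes] at h1

theorem mzr5_value_of_map (φ : F →ₐ[K] F') (hφ : φ.toRingHom.IsIntegral) (w : Place K F') {f : F}
    {c : K} (h : OrdGE w (φ f - algebraMap K F' c) 1) :
    OrdGE (w.restrictAlong φ hφ) (f - algebraMap K F c) 1 := by
  apply mzr5_ordGE_of_map φ hφ w
  rwa [map_sub, φ.commutes]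

/-- non-negativity of orders passes to the restricted place -/
theorem mzr5_ord_nonneg_of_map (φ : F →ₐ[K] F') (hφ : φ.toRingHom.IsIntegral) (w : Place K F')
    {f : F} (h : 0 ≤ w.ord (φ f)) : 0 ≤ (w.restrictAlong φ hφ).ord f := by
  rw [Place.ord_restrictAlong φ hφ] at h
  have he := mzr5_ramificationIndexAlong_pos φ hφ w
  have he' : (1 : ℤ) ≤ (Place.ramificationIndexAlong φ w : ℤ) := by exact_mod_cast he
  by_contra hcon
  push Not at hcon
  nlinarith

theorem mzr5_ord_nonneg_map (φ : F →ₐ[K] F') (hφ : φ.toRingHom.IsIntegral) (w : Place K F')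
    {f : F} (h : 0 ≤ (w.restrictAlong φ hφ).ord f) : 0 ≤ w.ord (φ f) := by
  rw [Place.ord_restrictAlong φ hφ]
  exact mul_nonneg (Int.natCast_nonneg _) h

end Ord

variable {K F₁ F₂ k Fb₁ Fb₂ : Type*} [Field K] [Field F₁] [Field F₂] [Algebra K F₁] [Algebra K F₂]
  [Field k] [Field Fb₁] [Field Fb₂] [Algebra k Fb₁] [Algebra k Fb₂]

/-- compatibility of `φ : F₁ → F₂`, `φ̄ : F̄₁ → F̄₂` with the reduction data -/
structure Mzr5Compat (d₁ : TbBase K F₁ k Fb₁) (d₂ : TbBase K F₂ k Fb₂) (φ : F₁ →ₐ[K] F₂)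
    (φb : Fb₁ →ₐ[k] Fb₂) : Prop where
  hA : d₁.A = d₂.A
  hresA : ∀ (a : K) (h₁ : a ∈ d₁.A) (h₂ : a ∈ d₂.A), d₁.resA ⟨a, h₁⟩ = d₂.resA ⟨a, h₂⟩
  mem : ∀ f : F₁, f ∈ d₁.Ov → φ f ∈ d₂.Ov
  res : ∀ (f : F₁) (hf : f ∈ d₁.Ov), d₂.res ⟨φ f, mem f hf⟩ = φb (d₁.res ⟨f, hf⟩)

variable [IsAlgClosed K] [IsAlgClosed k]

/-! ### The local evaluation lemma -/

section LocalEval

variable {F Fb : Type*} [Field F] [Algebra K F] [Field Fb] [Algebra k Fb]
  {d : TbBase K F k Fb} {ℓ : ℕ} {x : F}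

/-- **local evaluation**: if `g ∈ 𝒪` has the value `c ∈ A` at `w` and no pole of `g` reduces to
`r w`, then `ḡ` has the value `c̄` at `r w` -/
theorem mzr5_local_eval (hg : T3aGood d ℓ x) (w : Place K F) {g : F} (hgO : g ∈ d.Ov) (c : ↥d.A)
    (hc : OrdGE w (g - algebraMap K F (c : K)) 1)
    (hpole : ∀ w' : Place K F, w'.ord g < 0 → t3aR hg w' ≠ t3aR hg w) :
    OrdGE (t3aR hg w) (d.res ⟨g, hgO⟩ - algebraMap k Fb (d.resA c)) 1 := by
  classical
  haveI := hg.sep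
  haveI := hg.sepb'
  have hfO : g - algebraMap K F (c : K) ∈ d.Ov := d.Ov.sub_mem hgO (d.algebraMap_mem c)
  have hresf : d.res ⟨g - algebraMap K F (c : K), hfO⟩ =
      d.res ⟨g, hgO⟩ - algebraMap k Fb (d.resA c) := by
    rw [d.res_sub' hgO (d.algebraMap_mem c), d.res_algebraMap]
  rw [← hresf]
  by_cases h0 : d.res ⟨g - algebraMap K F (c : K), hfO⟩ = 0
  · rw [h0]
    exact ordGE_zero _ 1
  have hf0 : g - algebraMap K F (c : K) ≠ 0 := t3a_ne_zero_of_res_ne_zero d hfO h0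
  have hcons := t3a_conservation hg hfO h0 (CurveP.divOf hg.gen (g - algebraMap K F (c : K)))
    (fun P => CurveP.divOf_apply hg.gen hf0 P) (t3aR hg w)
  rw [ordGE_iff]
  right
  rw [← hcons, t3a_mapDomain_apply]
  have hw1 : 1 ≤ w.ord (g - algebraMap K F (c : K)) := by
    rcases (ordGE_iff w).mp hc with h | h
    · exact absurd h hf0
    · exact h
  have hwsupp : w ∈ (CurveP.divOf hg.gen (g - algebraMap K F (c : K))).support := by
    rw [Finsupp.mem_support_iff, CurveP.divOf_apply hg.gen hf0]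
    omega
  have hnn : ∀ P ∈ (CurveP.divOf hg.gen (g - algebraMap K F (c : K))).support,
      0 ≤ (if t3aR hg P = t3aR hg w then
        CurveP.divOf hg.gen (g - algebraMap K F (c : K)) P else 0) := by
    intro P _
    split_ifs with hP
    · rw [CurveP.divOf_apply hg.gen hf0]
      have hgP : 0 ≤ P.ord g := by
        by_contra hneg
        push Not at hneg
        exact hpole P hneg hP
      have h1 : g ∈ P.toValuationSubring := mem_of_ord_nonneg P hgP
      have h2 : algebraMap K F (c : K) ∈ P.toValuationSubring := algebraMap_mem P _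
      exact ord_nonneg_of_mem P (P.toValuationSubring.sub_mem h1 h2)
    · exact le_rfl
  have hle := Finset.single_le_sum hnn hwsupp
  rw [if_pos rfl, CurveP.divOf_apply hg.gen hf0] at hle
  omega

end LocalEval

/-! ### Integrality along an embedding -/

section Integral

variable {d₁ : TbBase K F₁ k Fb₁} {d₂ : TbBase K F₂ k Fb₂} {ℓ : ℕ} {x₁ : F₁} {x₂ : F₂}

/-- `φ` maps `IntCl(K[x₁])` into `IntCl(K[x₂])` if `φ x₁` is integral over `K[x₂]` -/
theorem mzr5_isIntegral_map (hg₂ : T3aGood d₂ ℓ x₂) (φ : F₁ →ₐ[K] F₂)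
    (hφ : φ.toRingHom.IsIntegral) (hx : IsIntegral ↥(Algebra.adjoin K {x₂}) (φ x₁)) {g : F₁}
    (hgi : IsIntegral ↥(Algebra.adjoin K {x₁}) g) :
    IsIntegral ↥(Algebra.adjoin K {x₂}) (φ g) := by
  haveI := hg₂.sep
  refine ta_isIntegral_of_regular hg₂.gen (φ g) (fun w hw => ?_)
  have h1 : 0 ≤ w.ord (φ x₁) := ta_ord_nonneg_of_isIntegral hx w hw
  have h2 : 0 ≤ (w.restrictAlong φ hφ).ord x₁ := mzr5_ord_nonneg_of_map φ hφ w h1
  have h3 : 0 ≤ (w.restrictAlong φ hφ).ord g := ta_ord_nonneg_of_isIntegral hgi _ h2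
  exact mzr5_ord_nonneg_map φ hφ w h3

/-- `φ` maps `C₁` into `C₂` -/
theorem mzr5_map_mem_C (hg₂ : T3aGood d₂ ℓ x₂) (φ : F₁ →ₐ[K] F₂) (hφ : φ.toRingHom.IsIntegral)
    {φb : Fb₁ →ₐ[k] Fb₂} (hc : Mzr5Compat d₁ d₂ φ φb) (hx : φ x₁ ∈ t3aC d₂ x₂) {g : F₁}
    (hgC : g ∈ t3aC d₁ x₁) : φ g ∈ t3aC d₂ x₂ :=
  ⟨hc.mem g hgC.1, mzr5_isIntegral_map hg₂ φ hφ hx.2 hgC.2⟩

end Integral

/-! ### Restriction commutes with reduction -/

section Main

variable [HasPrincipalDivisors K F₂] [HasPrincipalDivisors k Fb₂]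
variable {d₁ : TbBase K F₁ k Fb₁} {d₂ : TbBase K F₂ k Fb₂} {ℓ : ℕ} {x₁ : F₁} {x₂ : F₂}

/-- transport of an element of `A₁` to `A₂` -/
def Mzr5Compat.toA {φ : F₁ →ₐ[K] F₂} {φb : Fb₁ →ₐ[k] Fb₂} (hc : Mzr5Compat d₁ d₂ φ φb)
    (c : ↥d₁.A) : ↥d₂.A := ⟨(c : K), hc.hA ▸ c.2⟩

theorem Mzr5Compat.coe_toA {φ : F₁ →ₐ[K] F₂} {φb : Fb₁ →ₐ[k] Fb₂} (hc : Mzr5Compat d₁ d₂ φ φb)
    (c : ↥d₁.A) : ((hc.toA c : ↥d₂.A) : K) = (c : K) := rfl

theorem Mzr5Compat.resA_toA {φ : F₁ →ₐ[K] F₂} {φb : Fb₁ →ₐ[k] Fb₂} (hc : Mzr5Compat d₁ d₂ φ φb)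
    (c : ↥d₁.A) : d₂.resA (hc.toA c) = d₁.resA c :=
  (hc.hresA (c : K) c.2 (hc.hA ▸ c.2)).symm

/-- transport of an element of `A₂` to `A₁` -/
def Mzr5Compat.ofA {φ : F₁ →ₐ[K] F₂} {φb : Fb₁ →ₐ[k] Fb₂} (hc : Mzr5Compat d₁ d₂ φ φb)
    (c : ↥d₂.A) : ↥d₁.A := ⟨(c : K), hc.hA.symm ▸ c.2⟩

/-- the evaluation property of `r₂`, pulled back along `φ`, at a place `w` where the evaluation of
`φ g` commutes with reduction -/
theorem mzr5_eval_restrict (φ : F₁ →ₐ[K] F₂) (hφ : φ.toRingHom.IsIntegral)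
    (φb : Fb₁ →ₐ[k] Fb₂) (hφb : φb.toRingHom.IsIntegral) (hc : Mzr5Compat d₁ d₂ φ φb)
    (Q₂ : Place k Fb₂) {g : F₁} (hgO : g ∈ d₁.Ov) (c : ↥d₁.A)
    (h : OrdGE Q₂ (d₂.res ⟨φ g, hc.mem g hgO⟩ - algebraMap k Fb₂ (d₂.resA (hc.toA c))) 1) :
    OrdGE (Q₂.restrictAlong φb hφb) (d₁.res ⟨g, hgO⟩ - algebraMap k Fb₁ (d₁.resA c)) 1 := by
  apply mzr5_ordGE_of_map φb hφb Q₂
  rw [map_sub, φb.commutes, ← hc.res g hgO, ← hc.resA_toA c]
  exact h

/-- **restriction of places commutes with reduction** -/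
theorem mzr5_restrict_red (hg₁ : T3aGood d₁ ℓ x₁) (hg₂ : T3aGood d₂ ℓ x₂)
    (φ : F₁ →ₐ[K] F₂) (hφ : φ.toRingHom.IsIntegral)
    (φb : Fb₁ →ₐ[k] Fb₂) (hφb : φb.toRingHom.IsIntegral)
    (hc : Mzr5Compat d₁ d₂ φ φb)
    (hx : φ x₁ ∈ t3aC d₂ x₂)
    (hch : ∀ w : Place K F₂, T3aChartPlace d₁ x₁ (w.restrictAlong φ hφ) → T3aChartPlace d₂ x₂ w)
    (w : Place K F₂) :
    t3aR hg₁ (w.restrictAlong φ hφ) = (t3aR hg₂ w).restrictAlong φb hφb := by
  have hr₁ : T3aIsRed d₁ x₁ (t3aR hg₁) := t3aR_isRed hg₁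
  have hr₂ : T3aIsRed d₂ x₂ (t3aR hg₂) := t3aR_isRed hg₂
  symm
  by_cases hP : T3aChartPlace d₁ x₁ (w.restrictAlong φ hφ)
  · -- chart places: the evaluation property of `r₂`
    refine hr₁.unique hg₁ hP _ (fun g hgC c hgc => ?_)
    have hw : T3aChartPlace d₂ x₂ w := hch w hP
    have hgC₂ : φ g ∈ t3aC d₂ x₂ := mzr5_map_mem_C hg₂ φ hφ hc hx hgC
    have h1 : OrdGE w (φ g - algebraMap K F₂ ((hc.toA c : ↥d₂.A) : K)) 1 :=
      mzr5_value_map φ hφ w hgc
    have h2 := hr₂.eval1 w hw (φ g) hgC₂ (hc.toA c) h1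
    exact mzr5_eval_restrict φ hφ φb hφb hc _ hgC.1 c h2
  · -- the other chart: local evaluation
    have hP' : T3aChartPlace d₁ x₁⁻¹ (w.restrictAlong φ hφ) := t3a_chartPlace_inv_of_not hg₁ hP
    -- `w` is not a chart place of `x₂`
    have hw : ¬ T3aChartPlace d₂ x₂ w := by
      intro hw
      obtain ⟨c, hcw⟩ := t3a_value_mem hg₂ hw hx
      apply hP
      exact ⟨hc.ofA c, mzr5_value_of_map φ hφ w hcw⟩
    have hwb : ¬ 0 ≤ (t3aR hg₂ w).ord hg₂.xb := fun h =>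
      hw (hr₂.chartPlace_of_ord_nonneg hg₂ h)
    refine hr₁.unique_inv hg₁ hP' _ (fun g hgC c hgc => ?_)
    have h1 : OrdGE w (φ g - algebraMap K F₂ ((hc.toA c : ↥d₂.A) : K)) 1 :=
      mzr5_value_map φ hφ w hgc
    have h2 := mzr5_local_eval hg₂ w (hc.mem g hgC.1) (hc.toA c) h1 (fun w' hw' hcon => ?_)
    · exact mzr5_eval_restrict φ hφ φb hφb hc _ hgC.1 c h2
    · -- a pole `w'` of `φ g` is a zero of `φ x₁`, hence a chart place of `x₂`
      apply hwb
      rw [← hcon]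
      have hP₁ : (w'.restrictAlong φ hφ).ord g < 0 := by
        by_contra hnn
        push Not at hnn
        have := mzr5_ord_nonneg_map φ hφ w' hnn
        omega
      have hx₁ : ¬ 0 ≤ (w'.restrictAlong φ hφ).ord x₁⁻¹ := fun hnn => by
        have := ta_ord_nonneg_of_isIntegral hgC.2 _ hnn
        omega
      have hx₁' : 0 ≤ (w'.restrictAlong φ hφ).ord x₁ := by
        rw [Place.ord_inv] at hx₁
        omega
      have hchart : T3aChartPlace d₁ x₁ (w'.restrictAlong φ hφ) := by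
        rcases t3a_chart_cases hg₁ (w'.restrictAlong φ hφ) with h | ⟨a, ha, hPa⟩
        · exact h
        · -- `x₁⁻¹` would have a finite value and a pole
          exfalso
          have hmem : x₁⁻¹ ∈ (w'.restrictAlong φ hφ).toValuationSubring :=
            CurveP.RRAux.mem_of_ordGE_sub_const _ hPa
          exact hx₁ (ord_nonneg_of_mem _ hmem)
      exact hr₂.ord_nonneg_of_chartPlace hg₂ (hch w' hchart)

end Main

end Fermat.Agent.Mazur
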