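/-
MAZUR (Track M), package (R5) (lead), part 2: **pull-back of divisors commutes with reduction**
(`mzr5_pull_red`), for ALL divisors, from helper6's (PB) `mzr_pullback_red` applied at every place
with the local functions `t3a_exists_local`, and the resulting statement for correspondences
(`mzr5_corr_red_of_push`: given that the push-forward commutes with reduction).
-/
import Fermat.Agent.Lib.Mazur.Red.R5.Restrict
import Fermat.Agent.Lib.Mazur.Red.PB

set_option autoImplicit false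
set_option linter.style.haveILetI false
set_option linter.unusedSectionVars false
set_option linter.unusedVariables false

namespace Fermat.Agent.Mazur

open AlgebraicCurve IntermediateField Fermat.Agent.Curve Fermat.Agent.Curve.PlaceAux
  Fermat.Agent.T1 Fermat.Agent.T3

variable {K F₁ F₂ k Fb₁ Fb₂ : Type*} [Field K] [Field F₁] [Field F₂] [Algebra K F₁] [Algebra K F₂]
  [Field k] [Field Fb₁] [Field Fb₂] [Algebra k Fb₁] [Algebra k Fb₂]
  [IsAlgClosed K] [IsAlgClosed k]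
  [HasPrincipalDivisors K F₂] [HasPrincipalDivisors k Fb₂]

variable {d₁ : TbBase K F₁ k Fb₁} {d₂ : TbBase K F₂ k Fb₂} {ℓ : ℕ} {x₂ : F₂}

/-- (PB) at a chart place of an arbitrary good coordinate `y₁` of `F₁` -/
theorem mzr5_pull_single_chart {y₁ : F₁} (hg₁ : T3aGood d₁ ℓ y₁) {r₁ : Place K F₁ → Place k Fb₁}
    (hr₁ : T3aIsRed d₁ y₁ r₁) (hg₂ : T3aGood d₂ ℓ x₂)
    (φ : F₁ →ₐ[K] F₂) (hφ : φ.toRingHom.IsIntegral)
    (φb : Fb₁ →ₐ[k] Fb₂) (hφb : φb.toRingHom.IsIntegral)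
    (hc : Mzr5Compat d₁ d₂ φ φb)
    (hFI : FundamentalIdentityAlong K φ hφ) (hFIb : FundamentalIdentityAlong k φb hφb)
    (hdeg : finrankAlong K φ = finrankAlong k φb)
    (hR : ∀ w : Place K F₂, r₁ (w.restrictAlong φ hφ) = (t3aR hg₂ w).restrictAlong φb hφb)
    (P : Place K F₁) (hP : T3aChartPlace d₁ y₁ P) :
    Finsupp.mapDomain (t3aR hg₂) (Divisor.pullbackAlong φ hφ (Finsupp.single P 1)) =
      Divisor.pullbackAlong φb hφb (Finsupp.single (r₁ P) 1) := by
  classical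
  have hQ : 0 ≤ (r₁ P).ord hg₁.xb := hr₁.ord_nonneg_of_chartPlace hg₁ hP
  obtain ⟨u, huC, hu1, hu2, hu3⟩ := t3a_exists_local hg₁ hr₁ (r₁ P) hQ P
  rw [if_pos rfl] at hu3
  have hyP : 0 ≤ P.ord y₁ := by
    obtain ⟨a, ha⟩ := hP
    exact ord_nonneg_of_mem P (CurveP.RRAux.mem_of_ordGE_sub_const P ha)
  have hu0 : u ≠ 0 := t3a_ne_zero_of_res_ne_zero d₁ huC.1 hu2
  have huP : 0 < P.ord u := by
    rcases (ordGE_iff P).mp (hu1 hyP) with h | h
    · exact absurd h hu0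
    · omega
  refine mzr_pullback_red φ hφ hFI φb hφb hFIb hdeg hg₂ P (deg_eq_one hg₁.gen P) (r₁ P)
    (deg_eq_one hg₁.genb' (r₁ P)) (fun w hw => ?_) u (hc.mem u huC.1) (d₁.res ⟨u, huC.1⟩)
    (hc.res u huC.1) huP hu3 (fun w hw hcon => ?_)
  · rw [← hR w, hw]
  · -- a pole of `φ u` lies over a pole of `y₁`
    rw [← hR w] at hcon
    have h1 : (w.restrictAlong φ hφ).ord u < 0 := by
      by_contra hnn
      push Not at hnn
      have := mzr5_ord_nonneg_map φ hφ w hnn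
      omega
    have h2 : ¬ 0 ≤ (w.restrictAlong φ hφ).ord y₁ := fun hnn => by
      have := ta_ord_nonneg_of_isIntegral huC.2 _ hnn
      omega
    have h3 : T3aChartPlace d₁ y₁ (w.restrictAlong φ hφ) :=
      hr₁.chartPlace_of_ord_nonneg hg₁ (hcon ▸ hQ)
    obtain ⟨a, ha⟩ := h3
    exact h2 (ord_nonneg_of_mem _ (CurveP.RRAux.mem_of_ordGE_sub_const _ ha))

variable {x₁ : F₁}

/-- (PB) at every place -/
theorem mzr5_pull_single (hg₁ : T3aGood d₁ ℓ x₁) (hg₂ : T3aGood d₂ ℓ x₂)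
    (φ : F₁ →ₐ[K] F₂) (hφ : φ.toRingHom.IsIntegral)
    (φb : Fb₁ →ₐ[k] Fb₂) (hφb : φb.toRingHom.IsIntegral)
    (hc : Mzr5Compat d₁ d₂ φ φb)
    (hFI : FundamentalIdentityAlong K φ hφ) (hFIb : FundamentalIdentityAlong k φb hφb)
    (hdeg : finrankAlong K φ = finrankAlong k φb)
    (hR : ∀ w : Place K F₂,
      t3aR hg₁ (w.restrictAlong φ hφ) = (t3aR hg₂ w).restrictAlong φb hφb)
    (P : Place K F₁) :
    Finsupp.mapDomain (t3aR hg₂) (Divisor.pullbackAlong φ hφ (Finsupp.single P 1)) =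
      Divisor.pullbackAlong φb hφb (Finsupp.single (t3aR hg₁ P) 1) := by
  have hr₁ : T3aIsRed d₁ x₁ (t3aR hg₁) := t3aR_isRed hg₁
  by_cases hP : T3aChartPlace d₁ x₁ P
  · exact mzr5_pull_single_chart hg₁ hr₁ hg₂ φ hφ φb hφb hc hFI hFIb hdeg hR P hP
  · exact mzr5_pull_single_chart hg₁.inv hr₁.inv hg₂ φ hφ φb hφb hc hFI hFIb hdeg hR P
      (t3a_chartPlace_inv_of_not hg₁ hP)

/-- **(B) pull-back of divisors commutes with reduction** -/
theorem mzr5_pull_red (hg₁ : T3aGood d₁ ℓ x₁) (hg₂ : T3aGood d₂ ℓ x₂)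
    (φ : F₁ →ₐ[K] F₂) (hφ : φ.toRingHom.IsIntegral)
    (φb : Fb₁ →ₐ[k] Fb₂) (hφb : φb.toRingHom.IsIntegral)
    (hc : Mzr5Compat d₁ d₂ φ φb)
    (hFI : FundamentalIdentityAlong K φ hφ) (hFIb : FundamentalIdentityAlong k φb hφb)
    (hdeg : finrankAlong K φ = finrankAlong k φb)
    (hR : ∀ w : Place K F₂,
      t3aR hg₁ (w.restrictAlong φ hφ) = (t3aR hg₂ w).restrictAlong φb hφb)
    (D : Divisor K F₁) :
    Finsupp.mapDomain (t3aR hg₂) (Divisor.pullbackAlong φ hφ D) =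
      Divisor.pullbackAlong φb hφb (Finsupp.mapDomain (t3aR hg₁) D) := by
  induction D using Finsupp.induction_linear with
  | zero => rw [map_zero, Finsupp.mapDomain_zero, Finsupp.mapDomain_zero, map_zero]
  | add D E hD hE =>
    rw [map_add, Finsupp.mapDomain_add, Finsupp.mapDomain_add, map_add, hD, hE]
  | single P m =>
    rw [← Finsupp.smul_single_one P m, map_zsmul, Finsupp.mapDomain_smul, Finsupp.mapDomain_smul,
      Finsupp.mapDomain_single, map_zsmul,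
      mzr5_pull_single hg₁ hg₂ φ hφ φb hφb hc hFI hFIb hdeg hR P]

end Fermat.Agent.Mazur
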