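/-
MAZUR (Track M), package (R5) (lead), part 3: **correspondences commute with reduction**, and the
kernel of the reduction map on `Pic⁰` is stable under them.

* `mzr5_push_red` : push-forward of divisors commutes with reduction (from the compatibility of the
  restriction of places; all residue degrees are `1`);
* `mzr5_corr_red` : `red (ψ_* φ^* D) = ψ̄_* φ̄^* (red D)` on divisors;
* `mzr5_ker` : if `T` commutes with reduction on divisors and induces `TP` on `Pic⁰`, then
  `red y = 0 → red (TP y) = 0`.  NO statement about principal divisors on the reduced curve is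
  needed: a function `ḡ` with `red D = div ḡ` is lifted to `g ∈ 𝒪`, and `D - div g` reduces to the
  divisor `0` by the conservation law.
-/
import Fermat.Agent.Lib.Mazur.Red.R5.Pull
import Fermat.Agent.Lib.T3.Hecke.Along

set_option autoImplicit false
set_option linter.style.haveILetI false
set_option linter.unusedSectionVars false
set_option linter.unusedVariables false

namespace Fermat.Agent.Mazur

open AlgebraicCurve IntermediateField Fermat.Agent.Curve Fermat.Agent.Curve.PlaceAux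
  Fermat.Agent.T1 Fermat.Agent.T3

variable {K F₁ F₂ k Fb₁ Fb₂ : Type*} [Field K] [Field F₁] [Field F₂] [Algebra K F₁] [Algebra K F₂]
  [Field k] [Field Fb₁] [Field Fb₂] [Algebra k Fb₁] [Algebra k Fb₂]
  [IsAlgClosed K] [IsAlgClosed k]

variable {d₁ : TbBase K F₁ k Fb₁} {d₂ : TbBase K F₂ k Fb₂} {ℓ : ℕ} {x₁ : F₁} {x₂ : F₂}

/-- **(C) push-forward of divisors commutes with reduction** -/
theorem mzr5_push_red (hg₁ : T3aGood d₁ ℓ x₁) (hg₂ : T3aGood d₂ ℓ x₂)
    (ψ : F₁ →ₐ[K] F₂) (hψ : ψ.toRingHom.IsIntegral)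
    (ψb : Fb₁ →ₐ[k] Fb₂) (hψb : ψb.toRingHom.IsIntegral)
    (hR : ∀ w : Place K F₂,
      t3aR hg₁ (w.restrictAlong ψ hψ) = (t3aR hg₂ w).restrictAlong ψb hψb)
    (E : Divisor K F₂) :
    Finsupp.mapDomain (t3aR hg₁) (Divisor.pushforwardAlong ψ hψ E) =
      Divisor.pushforwardAlong ψb hψb (Finsupp.mapDomain (t3aR hg₂) E) := by
  induction E using Finsupp.induction_linear with
  | zero => rw [map_zero, Finsupp.mapDomain_zero, Finsupp.mapDomain_zero, map_zero]
  | add D E hD hE =>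
    rw [map_add, Finsupp.mapDomain_add, Finsupp.mapDomain_add, map_add, hD, hE]
  | single w m =>
    rw [Divisor.pushforwardAlong_single, Finsupp.mapDomain_single, Finsupp.mapDomain_single,
      Divisor.pushforwardAlong_single, t3h_inertiaDegAlong_eq_one hg₂.gen ψ hψ w,
      t3h_inertiaDegAlong_eq_one hg₂.genb' ψb hψb (t3aR hg₂ w), hR w]

variable [HasPrincipalDivisors K F₂] [HasPrincipalDivisors k Fb₂]

/-- **reduction commutes with the correspondence `ψ_* φ^*`** -/
theorem mzr5_corr_red (hg₁ : T3aGood d₁ ℓ x₁) (hg₂ : T3aGood d₂ ℓ x₂)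
    (φ ψ : F₁ →ₐ[K] F₂) (hφ : φ.toRingHom.IsIntegral) (hψ : ψ.toRingHom.IsIntegral)
    (φb ψb : Fb₁ →ₐ[k] Fb₂) (hφb : φb.toRingHom.IsIntegral) (hψb : ψb.toRingHom.IsIntegral)
    (hc : Mzr5Compat d₁ d₂ φ φb)
    (hFI : FundamentalIdentityAlong K φ hφ) (hFIb : FundamentalIdentityAlong k φb hφb)
    (hdeg : finrankAlong K φ = finrankAlong k φb)
    (hRφ : ∀ w : Place K F₂,
      t3aR hg₁ (w.restrictAlong φ hφ) = (t3aR hg₂ w).restrictAlong φb hφb)
    (hRψ : ∀ w : Place K F₂,
      t3aR hg₁ (w.restrictAlong ψ hψ) = (t3aR hg₂ w).restrictAlong ψb hψb)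
    (D : Divisor K F₁) :
    Finsupp.mapDomain (t3aR hg₁) (Divisor.correspondence φ ψ hφ hψ D) =
      Divisor.correspondence φb ψb hφb hψb (Finsupp.mapDomain (t3aR hg₁) D) := by
  rw [Divisor.correspondence_apply, Divisor.correspondence_apply,
    mzr5_push_red hg₁ hg₂ ψ hψ ψb hψb hRψ,
    mzr5_pull_red hg₁ hg₂ φ hφ φb hφb hc hFI hFIb hdeg hRφ]

omit [HasPrincipalDivisors K F₂] [HasPrincipalDivisors k Fb₂] in
/-- **kernel stability**: an endomorphism of `Pic⁰` induced by an additive map of divisors which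
commutes with reduction preserves the kernel of the reduction map -/
theorem mzr5_ker (hg₁ : T3aGood d₁ ℓ x₁)
    (T : Divisor K F₁ →+ Divisor K F₁) (Tb : Divisor k Fb₁ →+ Divisor k Fb₁)
    (hT : ∀ D : Divisor K F₁, Finsupp.mapDomain (t3aR hg₁) (T D) =
      Tb (Finsupp.mapDomain (t3aR hg₁) D))
    (hT0 : ∀ D : Divisor K F₁, D ∈ Divisor.degZero (K := K) (F := F₁) →
      T D ∈ Divisor.degZero (K := K) (F := F₁))
    (TP : Pic0 K F₁ →+ Pic0 K F₁)
    (hTP : ∀ D : Divisor.degZero (K := K) (F := F₁),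
      TP (Pic0.mk D) = Pic0.mk ⟨T (D : Divisor K F₁), hT0 D D.2⟩)
    (y : Pic0 K F₁) (hy : t3aRed hg₁ y = 0) : t3aRed hg₁ (TP y) = 0 := by
  haveI := hg₁.sep
  haveI := hg₁.sepb'
  obtain ⟨D, rfl⟩ := Pic0.mk_surjective y
  -- `red D = div gb`
  rw [t3aRed_mk, t3a_pic0_mk_eq_zero_iff] at hy
  obtain ⟨gb, hgb0, hDgb⟩ := hy
  -- lift `gb`
  obtain ⟨⟨G, hGO⟩, hGres⟩ := d₁.res_surj gb
  have hGres0 : d₁.res ⟨G, hGO⟩ ≠ 0 := by rw [hGres]; exact hgb0
  have hG0 : G ≠ 0 := t3a_ne_zero_of_res_ne_zero d₁ hGO hGres0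
  -- `E = div G`, a principal divisor of degree `0`
  set E : Divisor K F₁ := CurveP.divOf hg₁.gen G with hE
  have hEdeg : E ∈ Divisor.degZero (K := K) (F := F₁) := CurveP.degree_divOf hg₁.gen G
  have hEprin : E ∈ Divisor.principal (K := K) (F := F₁) :=
    ⟨G, hG0, fun v => CurveP.divOf_apply hg₁.gen hG0 v⟩
  -- `D' = D - E` has the same class and reduces to the divisor `0`
  set D' : Divisor.degZero (K := K) (F := F₁) := D - ⟨E, hEdeg⟩ with hD'
  have hclass : Pic0.mk D' = Pic0.mk D := by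
    rw [Pic0.mk, Pic0.mk, QuotientAddGroup.eq]
    simp only [AddSubgroup.mem_addSubgroupOf]
    have h1 : ((-D' + D : Divisor.degZero (K := K) (F := F₁)) : Divisor K F₁) = E := by
      rw [hD']
      push_cast
      abel
    rw [h1]
    exact hEprin
  have hred0 : Finsupp.mapDomain (t3aR hg₁) (D' : Divisor K F₁) = 0 := by
    have h1 : (D' : Divisor K F₁) = (D : Divisor K F₁) - E := by
      rw [hD']
      push_cast
      rfl
    rw [h1, Finsupp.mapDomain_sub]
    ext Q
    rw [Finsupp.sub_apply, Finsupp.zero_apply,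
      t3a_conservation hg₁ hGO hGres0 E (fun P => CurveP.divOf_apply hg₁.gen hG0 P) Q, hGres,
      ← hDgb Q]
    exact sub_self _
  rw [← hclass, hTP, t3aRed_mk, t3a_pic0_mk_eq_zero_iff]
  show Finsupp.mapDomain (t3aR hg₁) (T (D' : Divisor K F₁)) ∈ Divisor.principal (K := k) (F := Fb₁)
  rw [hT, hred0, map_zero]
  exact (Divisor.principal (K := k) (F := Fb₁)).zero_mem

end Fermat.Agent.Mazur
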