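/-
MAZUR (Track M), package (R5) (helper7), part 2: **the inputs of (R5) for the Hecke correspondence
at a good level** (`M` with `4 ∣ M` or `9 ∣ M`, `𝔓.p ∤ M r`, `r ∤ M` prime).

`α = heckeAlphaBar Qb M r` (`q ↦ q`), `β = heckeBetaBar Qb M r` (`q ↦ q ^ r`),
`ᾱ = dlhAlphaC κ M r`, `β̄ = dlhBetaC κ M r`; charts `x₁ = tbJ M`, `x₂ = tbJ (M r)`.

* chart hypotheses of `mzr5_restrict_red` for `α` (`mzr5i_hx_alpha`, `mzr5i_hch_alpha`) and for `β`
  (`mzr5i_hx_beta`, `mzr5i_hch_beta`: `j(q^r)` is integral over `ℤ[j]` and `j` is integral over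
  `ℤ[j(q^r)]` — the modular polynomial `Φ_r` is monic with integer coefficients);
* integrality of `ᾱ`, `β̄`; the fundamental identity for `α` and for `ᾱ`; `[F₂ : αF₁] = [F̄₂ : ᾱF̄₁]`.
-/
import Fermat.Agent.Lib.Mazur.Red.R5.Restrict
import Fermat.Agent.Lib.Mazur.Red.FundId
import Fermat.Agent.Lib.Delta.Hecke.NormBar
import Fermat.Agent.Lib.T3.Red.Modular
import Fermat.Agent.Lib.T3.Hecke.Emb
import Fermat.Agent.Lib.Igusa.ModPoly

set_option autoImplicit false
set_option linter.style.haveILetI false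
set_option linter.unusedSectionVars false
set_option linter.unusedVariables false
set_option synthInstance.maxHeartbeats 400000

namespace Fermat.Agent.Mazur

open AlgebraicCurve IntermediateField Fermat.Agent.Curve Fermat.Agent.Curve.PlaceAux
  Fermat.Agent.T1 Fermat.Agent.T3 ModularCurve Fermat.Agent.TW Fermat.Agent.Delta
  Fermat.Agent.Igusa HahnSeries

local notation "Qb" => AlgebraicClosure ℚ

attribute [local instance 5000] dlhAlgK

variable (𝔓 : FFPlace) (M r : ℕ) [NeZero M] [NeZero r]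

/-! ### The charts for `α` -/

theorem mzr5i_alpha_tbJ : heckeAlphaBar Qb M r (tbJ M) = tbJ (M * r) := Subtype.ext rfl

theorem mzr5i_coe_beta_tbJ :
    ((heckeBetaBar Qb M r (tbJ M) : ↥(modularFunctionFieldBar (M * r))) : LaurentSeries Qb) =
      qExpand Qb r (jqModC Qb) := rfl

variable (h49 : 4 ∣ M ∨ 9 ∣ M) (hM : ¬ 𝔓.p ∣ M) (hMr : ¬ 𝔓.p ∣ M * r)

include h49 in
theorem mzr5i_h49 : 4 ∣ M * r ∨ 9 ∣ M * r :=
  h49.imp (fun h => h.mul_right r) (fun h => h.mul_right r)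

include h49 in
theorem mzr5i_hx_alpha :
    heckeAlphaBar Qb M r (tbJ M) ∈ t3aC (t3aBase 𝔓 (M * r) hMr) (tbJ (M * r)) := by
  rw [mzr5i_alpha_tbJ]
  exact t3a_x_mem_C (t3a_good_modular 𝔓 (M * r) (mzr5i_h49 M r h49) hMr)

theorem mzr5i_hch_alpha (w : Place Qb ↥(modularFunctionFieldBar (M * r)))
    (hw : T3aChartPlace (t3aBase 𝔓 M hM) (tbJ M)
      (w.restrictAlong (heckeAlphaBar Qb M r) (t3h_alphaIntegral M r))) :
    T3aChartPlace (t3aBase 𝔓 (M * r) hMr) (tbJ (M * r)) w := by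
  obtain ⟨a, ha⟩ := hw
  refine ⟨⟨(a : Qb), a.2⟩, ?_⟩
  have h1 := mzr5_value_map (heckeAlphaBar Qb M r) (t3h_alphaIntegral M r) w ha
  rwa [mzr5i_alpha_tbJ] at h1

/-! ### The modular polynomial in `F_{M r}` -/

section ModPhi

variable (hr : r.Prime)

/-- integrality from a vanishing of `Φ_r` -/
theorem mzr5i_isIntegral_of_modPhi {F : Type*} [CommRing F] (X₀ Y₀ : F)
    (h0 : (modPhi r hr).eval₂ (Polynomial.eval₂RingHom (Int.castRingHom F) Y₀) X₀ = 0)
    {R : Type*} [CommRing R] [Algebra R F] (y : R) (hy : algebraMap R F y = Y₀) :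
    IsIntegral R X₀ := by
  refine ⟨(modPhi r hr).map (Polynomial.eval₂RingHom (Int.castRingHom R) y),
    (modPhi_monic r hr).map _, ?_⟩
  rw [Polynomial.eval₂_map]
  have h1 : (algebraMap R F).comp (Polynomial.eval₂RingHom (Int.castRingHom R) y) =
      Polynomial.eval₂RingHom (Int.castRingHom F) Y₀ := by
    apply Polynomial.ringHom_ext
    · intro n
      simp
    · simp [hy]
  rw [h1]
  exact h0

/-- `Φ_r(j(q^r), j(q)) = 0` in `F_{M r}` -/
theorem mzr5i_modPhi_left :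
    (modPhi r hr).eval₂ (Polynomial.eval₂RingHom
      (Int.castRingHom ↥(modularFunctionFieldBar (M * r))) (tbJ (M * r)))
      (heckeBetaBar Qb M r (tbJ M)) = 0 := by
  apply Subtype.val_injective
  have h1 := Polynomial.hom_eval₂ (modPhi r hr) (Polynomial.eval₂RingHom
      (Int.castRingHom ↥(modularFunctionFieldBar (M * r))) (tbJ (M * r)))
      (modularFunctionFieldBar (M * r)).val.toRingHom (heckeBetaBar Qb M r (tbJ M))
  have h2 : ((modularFunctionFieldBar (M * r)).val.toRingHom).comp (Polynomial.eval₂RingHom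
      (Int.castRingHom ↥(modularFunctionFieldBar (M * r))) (tbJ (M * r))) =
      (evalJ Qb).comp (Polynomial.mapRingHom (Int.castRingHom Qb)) := by
    apply Polynomial.ringHom_ext
    · intro n
      simp
    · simp [coe_tbJ]
  have h3 := modPhiK_eval_left r hr Qb
  rw [modPhiK, Polynomial.eval₂_map] at h3
  rw [h2] at h1
  show (modularFunctionFieldBar (M * r)).val.toRingHom _ = _
  rw [h1]
  exact h3

/-- `Φ_r(j(q), j(q^r)) = 0` in `F_{M r}` -/
theorem mzr5i_modPhi_right :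
    (modPhi r hr).eval₂ (Polynomial.eval₂RingHom
      (Int.castRingHom ↥(modularFunctionFieldBar (M * r))) (heckeBetaBar Qb M r (tbJ M)))
      (tbJ (M * r)) = 0 := by
  apply Subtype.val_injective
  have h1 := Polynomial.hom_eval₂ (modPhi r hr) (Polynomial.eval₂RingHom
      (Int.castRingHom ↥(modularFunctionFieldBar (M * r))) (heckeBetaBar Qb M r (tbJ M)))
      (modularFunctionFieldBar (M * r)).val.toRingHom (tbJ (M * r))
  have h2 : ((modularFunctionFieldBar (M * r)).val.toRingHom).comp (Polynomial.eval₂RingHom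
      (Int.castRingHom ↥(modularFunctionFieldBar (M * r))) (heckeBetaBar Qb M r (tbJ M))) =
      ((qExpand Qb r).comp (evalJ Qb)).comp (Polynomial.mapRingHom (Int.castRingHom Qb)) := by
    apply Polynomial.ringHom_ext
    · intro n
      simp
    · simp [coe_tbJ]
  have h3 := modPhiK_eval_right r hr Qb
  rw [modPhiK, Polynomial.eval₂_map] at h3
  rw [h2] at h1
  show (modularFunctionFieldBar (M * r)).val.toRingHom _ = _
  rw [h1]
  exact h3

end ModPhi

/-! ### The charts for `β` -/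

section Beta

variable (hr : r.Prime)

/-- `j(q^r)` lies in the Gauss ring -/
theorem mzr5i_beta_tbJ_mem : heckeBetaBar Qb M r (tbJ M) ∈ tbOvQ 𝔓 (M * r) := by
  refine tbq_mem_of_frac (a := qExpand ↥𝔓.P r (jqModC ↥𝔓.P)) (b := 1) ?_ ?_
  · rw [map_one]; exact one_ne_zero
  · rw [map_one, mul_one, coeffMap_qExpand, coeffMap_jqModC]
    rfl

include h49 hr in
theorem mzr5i_hx_beta :
    heckeBetaBar Qb M r (tbJ M) ∈ t3aC (t3aBase 𝔓 (M * r) hMr) (tbJ (M * r)) := by
  refine ⟨mzr5i_beta_tbJ_mem 𝔓 M r, ?_⟩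
  exact mzr5i_isIntegral_of_modPhi r hr _ _ (mzr5i_modPhi_left M r hr)
    (⟨tbJ (M * r), Algebra.self_mem_adjoin_singleton Qb _⟩ :
      ↥(Algebra.adjoin Qb {tbJ (M * r)})) rfl

include h49 hr in
theorem mzr5i_hch_beta (w : Place Qb ↥(modularFunctionFieldBar (M * r)))
    (hw : T3aChartPlace (t3aBase 𝔓 M hM) (tbJ M)
      (w.restrictAlong (heckeBetaBar Qb M r) (t3h_betaIntegral M r))) :
    T3aChartPlace (t3aBase 𝔓 (M * r) hMr) (tbJ (M * r)) w := by
  have hg₂ := t3a_good_modular 𝔓 (M * r) (mzr5i_h49 M r h49) hMr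
  obtain ⟨a, ha⟩ := hw
  have h1 := mzr5_value_map (heckeBetaBar Qb M r) (t3h_betaIntegral M r) w ha
  -- `j(q^r)` lies in the composite valuation ring at `w`
  have hJr : heckeBetaBar Qb M r (tbJ M) ∈ t3aComp hg₂.gen (t3aBase 𝔓 (M * r) hMr) w :=
    ⟨⟨(a : Qb), a.2⟩, h1⟩
  -- `j` is integral over `ℤ[j(q^r)]`
  have hint : IsIntegral ↥(Algebra.adjoin ℤ {heckeBetaBar Qb M r (tbJ M)}) (tbJ (M * r)) :=
    mzr5i_isIntegral_of_modPhi r hr _ _ (mzr5i_modPhi_right M r hr)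
      (⟨heckeBetaBar Qb M r (tbJ M), Algebra.self_mem_adjoin_singleton ℤ _⟩ :
        ↥(Algebra.adjoin ℤ {heckeBetaBar Qb M r (tbJ M)})) rfl
  have hR : ∀ z : ↥(Algebra.adjoin ℤ {heckeBetaBar Qb M r (tbJ M)}),
      algebraMap ↥(Algebra.adjoin ℤ {heckeBetaBar Qb M r (tbJ M)})
        ↥(modularFunctionFieldBar (M * r)) z ∈ t3aComp hg₂.gen (t3aBase 𝔓 (M * r) hMr) w := by
    intro z
    have hle : Algebra.adjoin ℤ {heckeBetaBar Qb M r (tbJ M)} ≤
        subalgebraOfSubring (t3aComp hg₂.gen (t3aBase 𝔓 (M * r) hMr) w).toSubring :=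
      Algebra.adjoin_le (by
        intro y hy
        rw [Set.mem_singleton_iff] at hy
        rw [hy]
        exact hJr)
    exact hle z.2
  exact t3a_mem_of_isIntegral (t3aComp hg₂.gen (t3aBase 𝔓 (M * r) hMr) w) hR hint

end Beta

/-! ### Integrality, fundamental identity and degrees -/

section Inputs

variable (hr : r.Prime) (hrM : ¬ r ∣ M) (hrp : r ≠ 𝔓.p)

theorem mzr5i_alphaC_integral :
    (dlhAlphaC (IsLocalRing.ResidueField ↥𝔓.P) M r).toRingHom.IsIntegral :=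
  t3h_isIntegralAlong (tbq_bar_isFunctionFieldGen 𝔓 M) (tbq_bar_isFunctionFieldGen 𝔓 (M * r))
    (dlhAlphaC (IsLocalRing.ResidueField ↥𝔓.P) M r)

theorem mzr5i_betaC_integral :
    (dlhBetaC (IsLocalRing.ResidueField ↥𝔓.P) M r).toRingHom.IsIntegral :=
  t3h_isIntegralAlong (tbq_bar_isFunctionFieldGen 𝔓 M) (tbq_bar_isFunctionFieldGen 𝔓 (M * r))
    (dlhBetaC (IsLocalRing.ResidueField ↥𝔓.P) M r)

include hM in
/-- the reduced function field has principal divisors -/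
theorem mzr5i_hasPrincipalDivisors :
    HasPrincipalDivisors (IsLocalRing.ResidueField ↥𝔓.P) ↥(tbBarF 𝔓 M) := by
  haveI : IsAlgClosed (IsLocalRing.ResidueField ↥𝔓.P) := tb_isAlgClosed_residueField 𝔓.P
  haveI := tbq_bar_isSeparable (𝔓 := 𝔓) (N := M) hM
  exact CurveP.hasPrincipalDivisors (tbq_bar_isFunctionFieldGen 𝔓 M)

include h49 hM hr hrp in
/-- the fundamental identity for `ᾱ` -/
theorem mzr5i_alphaC_fundamental
    [HasPrincipalDivisors (IsLocalRing.ResidueField ↥𝔓.P) ↥(tbBarF 𝔓 (M * r))] :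
    FundamentalIdentityAlong (IsLocalRing.ResidueField ↥𝔓.P)
      (dlhAlphaC (IsLocalRing.ResidueField ↥𝔓.P) M r) (mzr5i_alphaC_integral 𝔓 M r) := by
  haveI : IsAlgClosed (IsLocalRing.ResidueField ↥𝔓.P) := tb_isAlgClosed_residueField 𝔓.P
  haveI := tbq_bar_isSeparable (𝔓 := 𝔓) (N := M) hM
  exact mzr_fundamentalIdentityAlong (tbq_bar_isFunctionFieldGen 𝔓 M)
    (tbq_bar_isFunctionFieldGen 𝔓 (M * r)) _ _ (dlh_separable_alphaC 𝔓 h49 hM hr hrp)

include h49 hM hr hrM hrp in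
/-- `[F₂ : α F₁] = [F̄₂ : ᾱ F̄₁]` -/
theorem mzr5i_finrank_alpha :
    finrankAlong Qb (heckeAlphaBar Qb M r) =
      finrankAlong (IsLocalRing.ResidueField ↥𝔓.P)
        (dlhAlphaC (IsLocalRing.ResidueField ↥𝔓.P) M r) := by
  haveI : Fact r.Prime := ⟨hr⟩
  rw [t3k_finrank_alpha M r hrM]
  exact (dlh_finrank_alphaC 𝔓 h49 hM hr hrM hrp).symm

end Inputs

end Fermat.Agent.Mazur
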