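/-
MAZUR (Track M), package (R5) (helper7), part 3: **`ρ x = 0 ⇒ ρ (T_q x) = 0`** (final assembly).

* `mzr5_restrict_alpha`, `mzr5_restrict_beta` : restriction of places along `α`, `β` commutes with
  reduction at the good levels `M`, `M r`;
* `mzr5_hecke_red` : reduction of divisors commutes with the Hecke correspondence `α_* β^*`;
* `mzr5_hecke_ker_good` : `red y = 0 ⇒ red (T_r y) = 0` at a good level `M`;
* **`mzrRho_hecke_ker`** : (R5) for `mzrRho 𝔓 N hN`, all primes `q ∤ N · mzrAux 𝔓`, `q ≠ 𝔓.p`.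
-/
import Fermat.Agent.Lib.Mazur.Red.R5.Inst
import Fermat.Agent.Lib.Mazur.Red.R5.Corr
import Fermat.Agent.Lib.Mazur.Red.R5P.Compat
import Fermat.Agent.Lib.Mazur.Red.Defs

set_option autoImplicit false
set_option linter.style.haveILetI false
set_option linter.unusedSectionVars false
set_option linter.unusedVariables false
set_option synthInstance.maxHeartbeats 400000

namespace Fermat.Agent.Mazur

open AlgebraicCurve IntermediateField Fermat.Agent.Curve Fermat.Agent.Curve.PlaceAux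
  Fermat.Agent.T1 Fermat.Agent.T3 ModularCurve Fermat.Agent.TW Fermat.Agent.Delta
  Fermat.Agent.Igusa HahnSeries

local notation "Qb" => AlgebraicClosure ℚ

attribute [local instance 5000] dlhAlgK

section Good

variable (𝔓 : FFPlace) (M r : ℕ) [NeZero M] [NeZero r] (h49 : 4 ∣ M ∨ 9 ∣ M)
  (hM : ¬ 𝔓.p ∣ M) (hMr : ¬ 𝔓.p ∣ M * r) (hr : r.Prime) (hrM : ¬ r ∣ M)

include h49 in
/-- restriction along `α` commutes with reduction -/
theorem mzr5_restrict_alpha (w : Place Qb ↥(modularFunctionFieldBar (M * r))) :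
    t3aR (t3a_good_modular 𝔓 M h49 hM)
        (w.restrictAlong (heckeAlphaBar Qb M r) (t3h_alphaIntegral M r)) =
      (t3aR (t3a_good_modular 𝔓 (M * r) (mzr5i_h49 M r h49) hMr) w).restrictAlong
        (dlhAlphaC (IsLocalRing.ResidueField ↥𝔓.P) M r) (mzr5i_alphaC_integral 𝔓 M r) := by
  haveI : IsAlgClosed (IsLocalRing.ResidueField ↥𝔓.P) := tb_isAlgClosed_residueField 𝔓.P
  haveI := mzr5i_hasPrincipalDivisors 𝔓 (M * r) hMr
  exact mzr5_restrict_red (t3a_good_modular 𝔓 M h49 hM)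
    (t3a_good_modular 𝔓 (M * r) (mzr5i_h49 M r h49) hMr) (heckeAlphaBar Qb M r)
    (t3h_alphaIntegral M r) (dlhAlphaC (IsLocalRing.ResidueField ↥𝔓.P) M r)
    (mzr5i_alphaC_integral 𝔓 M r) (mzr5_compat_alpha 𝔓 M r hM hMr)
    (mzr5i_hx_alpha 𝔓 M r h49 hMr) (mzr5i_hch_alpha 𝔓 M r hM hMr) w

include h49 hr in
/-- restriction along `β` commutes with reduction -/
theorem mzr5_restrict_beta (w : Place Qb ↥(modularFunctionFieldBar (M * r))) :
    t3aR (t3a_good_modular 𝔓 M h49 hM)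
        (w.restrictAlong (heckeBetaBar Qb M r) (t3h_betaIntegral M r)) =
      (t3aR (t3a_good_modular 𝔓 (M * r) (mzr5i_h49 M r h49) hMr) w).restrictAlong
        (dlhBetaC (IsLocalRing.ResidueField ↥𝔓.P) M r)
        (mzr5p_integral_beta (IsLocalRing.ResidueField ↥𝔓.P) M r) := by
  haveI : IsAlgClosed (IsLocalRing.ResidueField ↥𝔓.P) := tb_isAlgClosed_residueField 𝔓.P
  haveI := mzr5i_hasPrincipalDivisors 𝔓 (M * r) hMr
  exact mzr5_restrict_red (t3a_good_modular 𝔓 M h49 hM)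
    (t3a_good_modular 𝔓 (M * r) (mzr5i_h49 M r h49) hMr) (heckeBetaBar Qb M r)
    (t3h_betaIntegral M r) (dlhBetaC (IsLocalRing.ResidueField ↥𝔓.P) M r)
    (mzr5p_integral_beta (IsLocalRing.ResidueField ↥𝔓.P) M r) (mzr5_compat_beta 𝔓 M r hM hMr)
    (mzr5i_hx_beta 𝔓 M r h49 hMr hr) (mzr5i_hch_beta 𝔓 M r h49 hM hMr hr) w

include h49 hr hrM hMr in
/-- **reduction of divisors commutes with the Hecke correspondence `T_r = α_* β^*`** -/
theorem mzr5_hecke_red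
    [HasPrincipalDivisors (IsLocalRing.ResidueField ↥𝔓.P) ↥(tbBarF 𝔓 (M * r))]
    (D : Divisor Qb ↥(modularFunctionFieldBar M)) :
    Finsupp.mapDomain (t3aR (t3a_good_modular 𝔓 M h49 hM))
        (heckeDivBar (t3h_alphaIntegral M r) (t3h_betaIntegral M r) D) =
      Divisor.correspondence (dlhBetaC (IsLocalRing.ResidueField ↥𝔓.P) M r)
        (dlhAlphaC (IsLocalRing.ResidueField ↥𝔓.P) M r)
        (mzr5p_integral_beta (IsLocalRing.ResidueField ↥𝔓.P) M r) (mzr5i_alphaC_integral 𝔓 M r)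
        (Finsupp.mapDomain (t3aR (t3a_good_modular 𝔓 M h49 hM)) D) := by
  haveI : IsAlgClosed (IsLocalRing.ResidueField ↥𝔓.P) := tb_isAlgClosed_residueField 𝔓.P
  exact mzr5_corr_red (t3a_good_modular 𝔓 M h49 hM)
    (t3a_good_modular 𝔓 (M * r) (mzr5i_h49 M r h49) hMr)
    (heckeBetaBar Qb M r) (heckeAlphaBar Qb M r) (t3h_betaIntegral M r) (t3h_alphaIntegral M r)
    (dlhBetaC (IsLocalRing.ResidueField ↥𝔓.P) M r) (dlhAlphaC (IsLocalRing.ResidueField ↥𝔓.P) M r)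
    (mzr5p_integral_beta (IsLocalRing.ResidueField ↥𝔓.P) M r) (mzr5i_alphaC_integral 𝔓 M r)
    (mzr5_compat_beta 𝔓 M r hM hMr) (t3h_betaFundamental M r) (mzr5_beta_hFIb 𝔓 M r hMr hr)
    (mzr5_beta_hdeg 𝔓 M r hMr hr hrM)
    (mzr5_restrict_beta 𝔓 M r h49 hM hMr hr) (mzr5_restrict_alpha 𝔓 M r h49 hM hMr) D

include h49 hr hrM in
/-- **(R5) at a good level** -/
theorem mzr5_hecke_ker_good (hrp : r ≠ 𝔓.p) (y : JZero M)
    (hy : t3zRed 𝔓 M h49 hM y = 0) :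
    t3zRed 𝔓 M h49 hM (heckeOperatorBar M ⟨r, hr⟩ y) = 0 := by
  haveI : IsAlgClosed (IsLocalRing.ResidueField ↥𝔓.P) := tb_isAlgClosed_residueField 𝔓.P
  have hMr : ¬ 𝔓.p ∣ M * r := dlh_not_dvd_mul 𝔓 hM hr hrp
  haveI := mzr5i_hasPrincipalDivisors 𝔓 (M * r) hMr
  exact mzr5_ker (t3a_good_modular 𝔓 M h49 hM)
    (heckeDivBar (t3h_alphaIntegral M r) (t3h_betaIntegral M r))
    (Divisor.correspondence (dlhBetaC (IsLocalRing.ResidueField ↥𝔓.P) M r)
        (dlhAlphaC (IsLocalRing.ResidueField ↥𝔓.P) M r)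
        (mzr5p_integral_beta (IsLocalRing.ResidueField ↥𝔓.P) M r) (mzr5i_alphaC_integral 𝔓 M r))
    (mzr5_hecke_red 𝔓 M r h49 hM hMr hr hrM)
    (fun D hD => Divisor.correspondence_mem_degZero _ _ _ _ (t3h_betaFundamental M r) hD)
    (heckeOperatorAlong Qb M r) (fun D => t3h_heckeOperatorAlong_mk M r D) y hy

end Good

/-- **(R5)**: the kernel of the reduction map is stable under the Hecke operators `T_q`,
`q ∤ N · mzrAux 𝔓`, `q ≠ 𝔓.p` -/
theorem mzrRho_hecke_ker (𝔓 : FFPlace) (N : ℕ) [NeZero N] (hN : ¬ 𝔓.p ∣ N) {q : ℕ} (hq : q.Prime)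
    (hqN : ¬ q ∣ N * mzrAux 𝔓) (hqℓ : q ≠ 𝔓.p) (x : JZero N) (h0 : mzrRho 𝔓 N hN x = 0) :
    mzrRho 𝔓 N hN (heckeOperatorBar N ⟨q, hq⟩ x) = 0 := by
  haveI : NeZero q := ⟨hq.ne_zero⟩
  rw [mzrRho_apply, t3pPull_heckeOperatorBar N (mzrAux 𝔓) hq hqN x]
  exact mzr5_hecke_ker_good 𝔓 (N * mzrAux 𝔓) q (mzr_h49 𝔓 N) (mzr_not_dvd 𝔓 N hN) hq hqN hqℓ _ h0

end Fermat.Agent.Mazur
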