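/-
MAZUR (Track M), package (R5) (helper7), part 1: **the norm formula `ord_v (N f) = ∑_{w ∣ v} ord_w f`
for a finite separable extension of function fields over an algebraically closed field of any
characteristic**.

(T3-H proves this in characteristic `0` through Mathlib's `Ideal.relNorm`, which needs a perfect
fraction field.)  Here: `S` = integral closure of `O_v` in `F'` is a PID with finitely many primes `Q`;
choose `h_Q` with `ord_{Q'} h_Q = δ_{Q Q'}` and put `c_Q := ord_v (N h_Q)`.  Then
`ord_v (N f) = ∑_Q c_Q ord_Q f` (units have norm of order `0`), `c_Q ≥ 1` (`h_Q ∣ N h_Q` in `S`), and the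
fundamental identity `∑_Q e_Q = n = ord_v (N t) = ∑_Q c_Q e_Q` (`t` a uniformiser at `v`;
`mzr_fundamentalIdentity`, Riemann–Roch) forces `c_Q = 1`.

* `mzr5n_ord_norm` : the norm formula at a place;
* `mzr5n_pushforwardNormFormula`, `mzr5n_normFormulaAlong` : the Prelude's shapes.
-/
import Mathlib
import Fermat.Agent.Lib.Delta.Hecke.NormOrd
import Fermat.Agent.Lib.Mazur.Red.FundId
import Fermat.Agent.Lib.T3.Hecke.Fund
import Fermat.Agent.Lib.Curve.PlaceRestrict

set_option autoImplicit false
set_option linter.unusedSectionVars false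
set_option linter.unusedVariables false
set_option linter.style.haveILetI false

namespace Fermat.Agent.Mazur

open AlgebraicCurve IsDedekindDomain WithZero Fermat.Agent.Curve Fermat.Agent.Curve.PlaceAux
  Fermat.Agent.T3 Fermat.Agent.Delta

variable {K F F' : Type*} [Field K] [Field F] [Field F'] [Algebra K F] [Algebra K F']
  [Algebra F F'] [IsScalarTower K F F'] [FiniteDimensional F F'] [Algebra.IsSeparable F F']
  (v : Place K F)

attribute [local instance] t3hS_isDedekindDomain t3hS_isFractionRing t3hS_moduleFinite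
  t3hS_algebra t3hS_isScalarTower t3hS_fintype

/-- the order of a product of powers -/
theorem mzr5n_ord_prod_zpow {ι : Type*} (s : Finset ι) (g : ι → F) (n : ι → ℤ)
    (hg : ∀ i ∈ s, g i ≠ 0) :
    v.ord (∏ i ∈ s, g i ^ n i) = ∑ i ∈ s, n i * v.ord (g i) := by
  classical
  induction s using Finset.induction_on with
  | empty => simp
  | insert a s ha ih =>
    have h1 : g a ^ n a ≠ 0 := zpow_ne_zero _ (hg a (Finset.mem_insert_self a s))
    have h2 : ∏ i ∈ s, g i ^ n i ≠ 0 :=
      Finset.prod_ne_zero_iff.mpr fun i hi => zpow_ne_zero _ (hg i (Finset.mem_insert_of_mem hi))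
    rw [Finset.prod_insert ha, Finset.sum_insert ha, v.ord_mul h1 h2, Place.ord_zpow,
      ih fun i hi => hg i (Finset.mem_insert_of_mem hi)]

/-- a non-unit of the integral closure has a norm of positive order -/
theorem mzr5n_ord_norm_pos (Q : HeightOneSpectrum (t3hS F' v)) (y : t3hS F' v) (hy0 : y ≠ 0)
    (hy : y ∈ Q.asIdeal) :
    0 < v.ord (Algebra.norm F (algebraMap (t3hS F' v) F' y)) := by
  have hdvd := Algebra.dvd_algebraMap_intNorm_self (A := v.toValuationSubring)
    (B := t3hS F' v) y
  have hmem : algebraMap v.toValuationSubring (t3hS F' v)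
      (Algebra.intNorm v.toValuationSubring (t3hS F' v) y) ∈ Q.asIdeal :=
    Ideal.mem_of_dvd _ hdvd hy
  haveI hlo : Q.asIdeal.LiesOver (IsLocalRing.maximalIdeal v.toValuationSubring) :=
    t3h_liesOver_maximalIdeal Q
  have hmem' : Algebra.intNorm v.toValuationSubring (t3hS F' v) y
      ∈ IsLocalRing.maximalIdeal v.toValuationSubring := by
    rw [hlo.over]
    exact hmem
  have hN : algebraMap v.toValuationSubring F
      (Algebra.intNorm v.toValuationSubring (t3hS F' v) y)
      = Algebra.norm F (algebraMap (t3hS F' v) F' y) :=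
    Algebra.algebraMap_intNorm (A := v.toValuationSubring) (B := t3hS F' v) y
  rcases (mem_maximalIdeal_iff v _).mp hmem' with h0 | hpos
  · exfalso
    rw [h0, map_zero] at hN
    have h1 : algebraMap (t3hS F' v) F' y = 0 := Algebra.norm_eq_zero_iff.mp hN.symm
    exact hy0 ((IsFractionRing.to_map_eq_zero_iff (K := F')).mp h1)
  · rw [← hN]
    exact hpos

omit [IsScalarTower K F F'] [Algebra.IsSeparable F F'] [Algebra K F] [Algebra K F'] in
/-- the norm of an inverse -/
theorem mzr5n_norm_inv (h : F') : Algebra.norm F h⁻¹ = (Algebra.norm F h)⁻¹ := by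
  rcases eq_or_ne h 0 with rfl | h0
  · rw [inv_zero, Algebra.norm_zero, inv_zero]
  · apply eq_inv_of_mul_eq_one_left
    rw [← map_mul, inv_mul_cancel₀ h0, map_one]

omit [IsScalarTower K F F'] [Algebra.IsSeparable F F'] [Algebra K F] [Algebra K F'] in
/-- the norm of an integral power -/
theorem mzr5n_norm_zpow (h : F') (n : ℤ) : Algebra.norm F (h ^ n) = Algebra.norm F h ^ n := by
  cases n with
  | ofNat m => rw [Int.ofNat_eq_natCast, zpow_natCast, zpow_natCast, map_pow]
  | negSucc m => rw [zpow_negSucc, zpow_negSucc, mzr5n_norm_inv, map_pow]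

/-- the valuation at a prime over `v` in terms of the order at the corresponding place -/
theorem mzr5n_valuation_eq_exp (Q : HeightOneSpectrum (t3hS F' v)) {f : F'} (hf : f ≠ 0) :
    Q.valuation F' f = exp (-(t3hPlace v Q).ord f) := by
  rw [← t3hPlace_adicValuation v Q f, Place.ord, neg_neg,
    exp_log ((t3hPlace v Q).adicValuation_ne_zero hf)]

/-- **the norm formula with weights** `c_Q ≥ 1` -/
theorem mzr5n_exists_weights :
    ∃ c : HeightOneSpectrum (t3hS F' v) → ℤ, (∀ Q, 1 ≤ c Q) ∧
      ∀ f : F', f ≠ 0 → v.ord (Algebra.norm F f)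
        = ∑ Q : HeightOneSpectrum (t3hS F' v), c Q * (t3hPlace v Q).ord f := by
  classical
  have hex : ∀ Q : HeightOneSpectrum (t3hS F' v), ∃ h : F', h ≠ 0 ∧
      ∀ Q' : HeightOneSpectrum (t3hS F' v),
        Q'.valuation F' h = exp (-(if Q' = Q then (1 : ℤ) else 0)) :=
    fun Q => dlh_exists_valuation v (fun Q' => if Q' = Q then 1 else 0)
  choose h hh0 hh using hex
  have hN0 : ∀ Q, Algebra.norm F (h Q) ≠ 0 := fun Q => by
    rw [ne_eq, Algebra.norm_eq_zero_iff]
    exact hh0 Q
  refine ⟨fun Q => v.ord (Algebra.norm F (h Q)), ?_, ?_⟩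
  · intro Q
    obtain ⟨y, hy⟩ := HeightOneSpectrum.mem_integers_of_valuation_le_one F' (h Q) (fun Q' => by
      rw [hh Q Q']
      split_ifs
      · exact (exp_le_exp.mpr (by norm_num : (-1 : ℤ) ≤ 0)).trans_eq exp_zero
      · rw [neg_zero, exp_zero])
    have hy0 : y ≠ 0 := by
      rintro rfl
      rw [map_zero] at hy
      exact hh0 Q hy.symm
    have hyQ : y ∈ Q.asIdeal := by
      have h1 : Q.valuation F' (algebraMap (t3hS F' v) F' y) < 1 := by
        rw [hy, hh Q Q, if_pos rfl]
        exact (exp_lt_exp.mpr (by norm_num : (-1 : ℤ) < 0)).trans_eq exp_zero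
      rw [HeightOneSpectrum.valuation_of_algebraMap] at h1
      exact (HeightOneSpectrum.intValuation_lt_one_iff_mem Q y).mp h1
    have h2 := mzr5n_ord_norm_pos v Q y hy0 hyQ
    rw [hy] at h2
    show 1 ≤ v.ord (Algebra.norm F (h Q))
    omega
  · intro f hf
    set n : HeightOneSpectrum (t3hS F' v) → ℤ := fun Q => (t3hPlace v Q).ord f with hn
    set g : F' := ∏ Q : HeightOneSpectrum (t3hS F' v), h Q ^ n Q with hg
    have hg0 : g ≠ 0 := Finset.prod_ne_zero_iff.mpr fun Q _ => zpow_ne_zero _ (hh0 Q)
    have hgval : ∀ Q' : HeightOneSpectrum (t3hS F' v), Q'.valuation F' g = exp (-(n Q')) := by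
      intro Q'
      rw [hg, map_prod, Finset.prod_eq_single Q']
      · rw [map_zpow₀, hh Q' Q', if_pos rfl, ← exp_zsmul, smul_eq_mul, mul_neg_one]
      · intro Q _ hQ
        rw [map_zpow₀, hh Q Q', if_neg (Ne.symm hQ), neg_zero, exp_zero, one_zpow]
      · intro hQ
        exact absurd (Finset.mem_univ _) hQ
    have hu0 : f / g ≠ 0 := div_ne_zero hf hg0
    have hu : ∀ Q' : HeightOneSpectrum (t3hS F' v), Q'.valuation F' (f / g) = 1 := by
      intro Q'
      rw [map_div₀, hgval Q', mzr5n_valuation_eq_exp v Q' hf]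
      exact div_self (by simp)
    have h1 := dlh_ord_norm_unit v hu0 hu
    have h2 : f = g * (f / g) := by rw [mul_div_cancel₀ _ hg0]
    have hNg : Algebra.norm F g ≠ 0 := by
      rw [ne_eq, Algebra.norm_eq_zero_iff]
      exact hg0
    have hNu : Algebra.norm F (f / g) ≠ 0 := by
      rw [ne_eq, Algebra.norm_eq_zero_iff]
      exact hu0
    have h3 : Algebra.norm F g
        = ∏ Q : HeightOneSpectrum (t3hS F' v), Algebra.norm F (h Q) ^ n Q := by
      rw [hg, map_prod]
      exact Finset.prod_congr rfl fun Q _ => mzr5n_norm_zpow _ _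
    rw [h2, map_mul, v.ord_mul hNg hNu, h1, add_zero, h3,
      mzr5n_ord_prod_zpow v Finset.univ _ n (fun Q _ => hN0 Q)]
    refine Finset.sum_congr rfl fun Q _ => ?_
    rw [mul_comm, ← h2]

section AlgClosed

variable [IsAlgClosed K] [HasPrincipalDivisors K F']

/-- **the norm formula at a place**, any characteristic, `F' / F` separable -/
theorem mzr5n_ord_norm (hFI : FundamentalIdentity K F F') {x : F} (hx : IsFunctionFieldGen K F x)
    {x' : F'} (hx' : IsFunctionFieldGen K F' x') (f : F') (hf : f ≠ 0) :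
    v.ord (Algebra.norm F f) = ∑ Q : HeightOneSpectrum (t3hS F' v), (t3hPlace v Q).ord f := by
  classical
  obtain ⟨c, hc1, hc⟩ := mzr5n_exists_weights (F' := F') v
  suffices h : ∀ Q, c Q = 1 by
    rw [hc f hf]
    exact Finset.sum_congr rfl fun Q _ => by rw [h Q, one_mul]
  -- the ramification indices
  set e : HeightOneSpectrum (t3hS F' v) → ℤ :=
    fun Q => ((t3hPlace v Q).ramificationIndex F : ℤ) with he
  have hepos : ∀ Q, 1 ≤ e Q := by
    intro Q
    have := (t3hPlace v Q).ramificationIndex_pos (F := F)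
    show (1 : ℤ) ≤ ((t3hPlace v Q).ramificationIndex F : ℤ)
    omega
  -- the fundamental identity
  have h1 : ∑ Q : HeightOneSpectrum (t3hS F' v), e Q = (Module.finrank F F' : ℤ) := by
    have hfi := hFI.sum_ramificationIndex_mul_deg v
    rw [deg_eq_one hx v, Nat.cast_one, mul_one] at hfi
    rw [← hfi]
    have himg : v.fiber F' = Finset.univ.image (t3hPlace (F' := F') v) := by
      ext w
      rw [Place.mem_fiber, Finset.mem_image]
      constructor
      · intro hw
        obtain ⟨Q, hQ⟩ := t3hPlace_surjective v w hw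
        exact ⟨Q, Finset.mem_univ _, hQ⟩
      · rintro ⟨Q, -, rfl⟩
        exact t3hPlace_restrict v Q
    rw [himg, Finset.sum_image fun Q _ Q' _ h => t3hPlace_injective v h]
    refine Finset.sum_congr rfl fun Q _ => ?_
    rw [deg_eq_one hx' (t3hPlace v Q), Nat.cast_one, mul_one]
  -- the norm of a uniformiser
  obtain ⟨t, ht0, ht⟩ := t3h_exists_ord_eq_one v
  have htF : algebraMap F F' t ≠ 0 := by simpa using ht0
  have h2 : ∑ Q : HeightOneSpectrum (t3hS F' v), c Q * e Q = (Module.finrank F F' : ℤ) := by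
    have h3 := hc (algebraMap F F' t) htF
    rw [Algebra.norm_algebraMap, ← zpow_natCast, Place.ord_zpow, ht, mul_one] at h3
    rw [h3]
    refine Finset.sum_congr rfl fun Q _ => ?_
    rw [(t3hPlace v Q).ord_restrict, t3hPlace_restrict v Q, ht, mul_one]
  -- conclusion
  have h4 : ∑ Q : HeightOneSpectrum (t3hS F' v), (c Q - 1) * e Q = 0 := by
    simp_rw [sub_mul, one_mul]
    rw [Finset.sum_sub_distrib, h1, h2, sub_self]
  have h5 := (Finset.sum_eq_zero_iff_of_nonneg (fun Q _ =>
    mul_nonneg (by have := hc1 Q; omega) (by have := hepos Q; omega))).mp h4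
  intro Q
  have h6 := h5 Q (Finset.mem_univ _)
  have h7 : e Q ≠ 0 := by have := hepos Q; omega
  have h8 := (mul_eq_zero.mp h6).resolve_right h7
  omega

/-- **the norm formula** `f_* div(f) = div(N f)`, any characteristic, `F' / F` separable -/
theorem mzr5n_pushforwardNormFormula (hFI : FundamentalIdentity K F F') {x : F}
    (hx : IsFunctionFieldGen K F x) {x' : F'} (hx' : IsFunctionFieldGen K F' x') :
    Divisor.PushforwardNormFormula K F F' := by
  classical
  intro f hf D hD v
  rw [Divisor.pushforward_apply, mzr5n_ord_norm v hFI hx hx' f hf, ← Finset.sum_filter]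
  have h1 : ∑ Q : HeightOneSpectrum (t3hS F' v), (t3hPlace v Q).ord f
      = ∑ w ∈ Finset.univ.image (t3hPlace (F' := F') v), w.ord f :=
    (Finset.sum_image (f := fun w : Place K F' => w.ord f) (g := t3hPlace (F' := F') v)
      (s := Finset.univ) fun Q _ Q' _ h => t3hPlace_injective v h).symm
  rw [h1]
  have hsub : D.support.filter (fun w => w.restrict F = v)
      ⊆ Finset.univ.image (t3hPlace (F' := F') v) := by
    intro w hw
    rw [Finset.mem_filter] at hw
    obtain ⟨Q, hQ⟩ := t3hPlace_surjective v w hw.2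
    exact Finset.mem_image.mpr ⟨Q, Finset.mem_univ _, hQ⟩
  rw [← Finset.sum_subset hsub]
  · refine Finset.sum_congr rfl fun w _ => ?_
    rw [t3h_place_inertiaDeg_eq_one hx' w, Nat.cast_one, mul_one, hD w]
  · intro w hw hw'
    obtain ⟨Q, -, rfl⟩ := Finset.mem_image.mp hw
    rw [Finset.mem_filter, not_and] at hw'
    have h2 : t3hPlace v Q ∉ D.support := fun h => hw' h (t3hPlace_restrict v Q)
    rw [Finsupp.notMem_support_iff, hD] at h2
    exact h2

end AlgClosed

section Along

variable {k E E' : Type*} [Field k] [Field E] [Field E'] [Algebra k E] [Algebra k E']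
  [IsAlgClosed k]

open IntermediateField in
/-- **the norm formula along a homomorphism of function fields**, `E' / φ E` separable, any
characteristic -/
theorem mzr5n_normFormulaAlong {x : E} (hx : IsFunctionFieldGen k E x)
    [Algebra.IsSeparable ↥(k⟮x⟯) E] {x' : E'} (hx' : IsFunctionFieldGen k E' x')
    (φ : E →ₐ[k] E') (hφ : φ.toRingHom.IsIntegral) [HasPrincipalDivisors k E']
    (hfin : FiniteAlong k φ)
    (hsep : letI := algebraAlong φ; Algebra.IsSeparable E E') :
    NormFormulaAlong k φ hfin := by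
  have hFI := mzr_fundamentalIdentityAlong hx hx' φ hφ hsep
  letI := algebraAlong φ
  haveI := isScalarTower_along φ
  haveI : Module.Finite E E' := hfin
  haveI : Algebra.IsSeparable E E' := hsep
  haveI := isIntegral_along φ hφ
  show Divisor.PushforwardNormFormula k E E'
  exact mzr5n_pushforwardNormFormula hFI hx hx'

open IntermediateField in
/-- push-forward along a separable homomorphism preserves principal divisors -/
theorem mzr5n_isPrincipal_pushforwardAlong {x : E} (hx : IsFunctionFieldGen k E x)
    [Algebra.IsSeparable ↥(k⟮x⟯) E] {x' : E'} (hx' : IsFunctionFieldGen k E' x')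
    (φ : E →ₐ[k] E') (hφ : φ.toRingHom.IsIntegral) [HasPrincipalDivisors k E']
    (hfin : FiniteAlong k φ)
    (hsep : letI := algebraAlong φ; Algebra.IsSeparable E E')
    {D : Divisor k E'} (hD : D.IsPrincipal) :
    (Divisor.pushforwardAlong φ hφ D).IsPrincipal :=
  Divisor.isPrincipal_pushforwardAlong φ hφ hfin
    (mzr5n_normFormulaAlong hx hx' φ hφ hfin hsep) hD

end Along

end Fermat.Agent.Mazur
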